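/-
TW-C2, the matrix core: a cocycle on a group of unipotent `2 × 2` matrices with
`tr(c σ) = tr(c σ · R σ) = 0` is a coboundary of a trace-zero matrix, provided additive functions
built from `(c, R)` are proportional (tame inertia) and the group acts non-trivially.
-/
import Mathlib

set_option autoImplicit false
set_option linter.unusedSimpArgs false
set_option linter.unnecessarySeqFocus false

namespace Fermat.Agent.TW.Contain

open Matrix

variable {k : Type*} [Field k] {G : Type*} [Group G]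

omit [Field k] in
/-- Every `2 × 2` matrix is `!![a, b; c, d]`. -/
theorem exists_eq_of (M : Matrix (Fin 2) (Fin 2) k) : ∃ a b c d : k, M = !![a, b; c, d] :=
  ⟨_, _, _, _, Matrix.eta_fin_two M⟩

/-- Normal form of a non-trivial unipotent matrix. -/
theorem exists_conj_unitri (M : Matrix (Fin 2) (Fin 2) k) (htr : M.trace = 2) (hdet : M.det = 1)
    (hne : M ≠ 1) :
    ∃ g g' : Matrix (Fin 2) (Fin 2) k, g * g' = 1 ∧ g' * g = 1 ∧ g * M * g' = !![1, 1; 0, 1] := by
  obtain ⟨a, b, c, d, rfl⟩ := exists_eq_of M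
  rw [Matrix.trace_fin_two_of] at htr
  rw [Matrix.det_fin_two_of] at hdet
  have e11 : d = 2 - a := by linear_combination htr
  subst e11
  have hsq : (a - 1) ^ 2 + b * c = 0 := by linear_combination -hdet
  by_cases h10 : c = 0
  · -- upper triangular case
    subst h10
    have h00 : a = 1 := by
      have h : (a - 1) ^ 2 = 0 := by linear_combination hsq
      have := (pow_eq_zero_iff (two_ne_zero)).mp h
      linear_combination this
    subst h00
    have h01 : b ≠ 0 := by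
      intro h01
      apply hne
      subst h01
      rw [Matrix.one_fin_two]
      norm_num
    refine ⟨!![1, 0; 0, b], !![1, 0; 0, b⁻¹], ?_, ?_, ?_⟩
    · rw [Matrix.mul_fin_two, Matrix.one_fin_two]
      simp [h01]
    · rw [Matrix.mul_fin_two, Matrix.one_fin_two]
      simp [h01]
    · rw [Matrix.mul_fin_two, Matrix.mul_fin_two]
      congr 1
      ext i j
      fin_cases i <;> fin_cases j <;> simp [h01]
      field_simp
      ring1
  · -- lower-left entry non-zero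
    refine ⟨!![0, c⁻¹; 1, -(a - 1) * c⁻¹], !![a - 1, 1; c, 0], ?_, ?_, ?_⟩
    · rw [Matrix.mul_fin_two, Matrix.one_fin_two]
      congr 1
      ext i j
      fin_cases i <;> fin_cases j <;> simp [h10]
    · rw [Matrix.mul_fin_two, Matrix.one_fin_two]
      congr 1
      ext i j
      fin_cases i <;> fin_cases j <;> simp [h10]
      ring1
    · rw [Matrix.mul_fin_two, Matrix.mul_fin_two]
      congr 1
      ext i j
      fin_cases i <;> fin_cases j <;> simp [h10] <;>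
        first
          | (field_simp; ring1)
          | (field_simp; linear_combination hsq)

/-- The normal-form case of `exists_cob_of_unipotent`: some `R σ₀`, `σ₀ ∈ I`, is `!![1, 1; 0, 1]`. -/
theorem exists_cob_of_unitri (h2 : (2 : k) ≠ 0) (I : Subgroup G)
    (R : G →* Matrix (Fin 2) (Fin 2) k) (c : G → Matrix (Fin 2) (Fin 2) k)
    (hR : ∀ σ ∈ I, (R σ).trace = 2 ∧ (R σ).det = 1)
    (hc0 : ∀ σ ∈ I, (c σ).trace = 0)
    (hc1 : ∀ σ ∈ I, (c σ * R σ).trace = 0)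
    (hcoc : ∀ σ ∈ I, ∀ τ ∈ I, c (σ * τ) = c σ + R σ * c τ * R σ⁻¹)
    (σ₀ : G) (hσ₀ : σ₀ ∈ I) (hRσ₀ : R σ₀ = !![1, 1; 0, 1])
    (hprop : ∀ φ ψ : Matrix (Fin 2) (Fin 2) k → Matrix (Fin 2) (Fin 2) k → k,
      (∀ σ ∈ I, ∀ τ ∈ I, φ (c (σ * τ)) (R (σ * τ)) = φ (c σ) (R σ) + φ (c τ) (R τ)) →
      (∀ σ ∈ I, ∀ τ ∈ I, ψ (c (σ * τ)) (R (σ * τ)) = ψ (c σ) (R σ) + ψ (c τ) (R τ)) →
      (∃ σ ∈ I, ψ (c σ) (R σ) ≠ 0) → ∃ x : k, ∀ σ ∈ I, φ (c σ) (R σ) = x * ψ (c σ) (R σ)) :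
    ∃ X : Matrix (Fin 2) (Fin 2) k, X.trace = 0 ∧ ∀ σ ∈ I, c σ = R σ * X * R σ⁻¹ - X := by
  -- (1) the shape of `R` on `I`
  have h10 : ∀ σ ∈ I, R σ 1 0 = 0 := by
    intro σ hσ
    have htr := (hR σ hσ).1
    have h1 := (hR (σ₀ * σ) (I.mul_mem hσ₀ hσ)).1
    rw [map_mul, hRσ₀] at h1
    simp only [Matrix.mul_apply, Matrix.add_apply, Matrix.sub_apply, Fin.sum_univ_two,
      Matrix.of_apply, Matrix.cons_val_zero, Matrix.cons_val_one, Matrix.cons_val',
      Matrix.cons_val_fin_one, Matrix.trace_fin_two, Matrix.det_fin_two] at h1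
    simp only [Matrix.mul_apply, Matrix.add_apply, Matrix.sub_apply, Fin.sum_univ_two,
      Matrix.of_apply, Matrix.cons_val_zero, Matrix.cons_val_one, Matrix.cons_val',
      Matrix.cons_val_fin_one, Matrix.trace_fin_two, Matrix.det_fin_two] at htr
    linear_combination h1 - htr
  have h00 : ∀ σ ∈ I, R σ 0 0 = 1 := by
    intro σ hσ
    obtain ⟨htr, hdet⟩ := hR σ hσ
    simp only [Matrix.mul_apply, Matrix.add_apply, Matrix.sub_apply, Fin.sum_univ_two,
      Matrix.of_apply, Matrix.cons_val_zero, Matrix.cons_val_one, Matrix.cons_val',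
      Matrix.cons_val_fin_one, Matrix.trace_fin_two, Matrix.det_fin_two] at htr
    simp only [Matrix.mul_apply, Matrix.add_apply, Matrix.sub_apply, Fin.sum_univ_two,
      Matrix.of_apply, Matrix.cons_val_zero, Matrix.cons_val_one, Matrix.cons_val',
      Matrix.cons_val_fin_one, Matrix.trace_fin_two, Matrix.det_fin_two] at hdet
    rw [h10 σ hσ] at hdet
    have h : (R σ 0 0 - 1) ^ 2 = 0 := by
      have e : R σ 1 1 = 2 - R σ 0 0 := by linear_combination htr
      rw [e] at hdet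
      linear_combination -hdet
    have := (pow_eq_zero_iff two_ne_zero).mp h
    linear_combination this
  have h11 : ∀ σ ∈ I, R σ 1 1 = 1 := by
    intro σ hσ
    have htr := (hR σ hσ).1
    simp only [Matrix.mul_apply, Matrix.add_apply, Matrix.sub_apply, Fin.sum_univ_two,
      Matrix.of_apply, Matrix.cons_val_zero, Matrix.cons_val_one, Matrix.cons_val',
      Matrix.cons_val_fin_one, Matrix.trace_fin_two, Matrix.det_fin_two] at htr
    linear_combination htr - h00 σ hσ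
  have hu0 : R σ₀ 0 1 = 1 := by rw [hRσ₀]; rfl
  have hu_one : R 1 0 1 = 0 := by rw [map_one]; exact Matrix.one_apply_ne (by decide)
  have hu_mul : ∀ σ ∈ I, ∀ τ ∈ I, R (σ * τ) 0 1 = R σ 0 1 + R τ 0 1 := by
    intro σ hσ τ hτ
    have h := congrFun (congrFun (map_mul R σ τ) 0) 1
    simp only [Matrix.mul_apply, Matrix.add_apply, Matrix.sub_apply, Fin.sum_univ_two,
      Matrix.of_apply, Matrix.cons_val_zero, Matrix.cons_val_one, Matrix.cons_val',
      Matrix.cons_val_fin_one, Matrix.trace_fin_two, Matrix.det_fin_two] at h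
    rw [h, h00 σ hσ, h11 τ hτ]
    ring
  have hu_inv : ∀ σ ∈ I, R σ⁻¹ 0 1 = - R σ 0 1 := by
    intro σ hσ
    have h := hu_mul σ hσ σ⁻¹ (I.inv_mem hσ)
    rw [mul_inv_cancel, hu_one] at h
    linear_combination -h
  -- (2) the cocycle in coordinates
  have hD : ∀ σ ∈ I, c σ 1 1 = - c σ 0 0 := by
    intro σ hσ
    have h := hc0 σ hσ
    simp only [Matrix.mul_apply, Matrix.add_apply, Matrix.sub_apply, Fin.sum_univ_two,
      Matrix.of_apply, Matrix.cons_val_zero, Matrix.cons_val_one, Matrix.cons_val',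
      Matrix.cons_val_fin_one, Matrix.trace_fin_two, Matrix.det_fin_two] at h
    linear_combination h
  have hTu : ∀ σ ∈ I, c σ 1 0 * R σ 0 1 = 0 := by
    intro σ hσ
    have h := hc1 σ hσ
    simp only [Matrix.mul_apply, Matrix.add_apply, Matrix.sub_apply, Fin.sum_univ_two,
      Matrix.of_apply, Matrix.cons_val_zero, Matrix.cons_val_one, Matrix.cons_val',
      Matrix.cons_val_fin_one, Matrix.trace_fin_two, Matrix.det_fin_two] at h
    rw [h00 σ hσ, h10 σ hσ, h11 σ hσ, hD σ hσ] at h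
    linear_combination h
  have e10 : ∀ σ ∈ I, ∀ τ ∈ I, c (σ * τ) 1 0 = c σ 1 0 + c τ 1 0 := by
    intro σ hσ τ hτ
    have h := congrFun (congrFun (hcoc σ hσ τ hτ) 1) 0
    simp only [Matrix.mul_apply, Matrix.add_apply, Matrix.sub_apply, Fin.sum_univ_two,
      Matrix.of_apply, Matrix.cons_val_zero, Matrix.cons_val_one, Matrix.cons_val',
      Matrix.cons_val_fin_one, Matrix.trace_fin_two, Matrix.det_fin_two] at h
    rw [h, h10 σ hσ, h11 σ hσ, h00 σ⁻¹ (I.inv_mem hσ), h10 σ⁻¹ (I.inv_mem hσ)]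
    ring
  have e00 : ∀ σ ∈ I, ∀ τ ∈ I,
      c (σ * τ) 0 0 = c σ 0 0 + c τ 0 0 + R σ 0 1 * c τ 1 0 := by
    intro σ hσ τ hτ
    have h := congrFun (congrFun (hcoc σ hσ τ hτ) 0) 0
    simp only [Matrix.mul_apply, Matrix.add_apply, Matrix.sub_apply, Fin.sum_univ_two,
      Matrix.of_apply, Matrix.cons_val_zero, Matrix.cons_val_one, Matrix.cons_val',
      Matrix.cons_val_fin_one, Matrix.trace_fin_two, Matrix.det_fin_two] at h
    rw [h, h00 σ hσ, h00 σ⁻¹ (I.inv_mem hσ), h10 σ⁻¹ (I.inv_mem hσ)]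
    ring
  have e01 : ∀ σ ∈ I, ∀ τ ∈ I, c (σ * τ) 0 1 =
      c σ 0 1 + c τ 0 1 - 2 * R σ 0 1 * c τ 0 0 - R σ 0 1 ^ 2 * c τ 1 0 := by
    intro σ hσ τ hτ
    have h := congrFun (congrFun (hcoc σ hσ τ hτ) 0) 1
    simp only [Matrix.mul_apply, Matrix.add_apply, Matrix.sub_apply, Fin.sum_univ_two,
      Matrix.of_apply, Matrix.cons_val_zero, Matrix.cons_val_one, Matrix.cons_val',
      Matrix.cons_val_fin_one, Matrix.trace_fin_two, Matrix.det_fin_two] at h
    rw [h, h00 σ hσ, hu_inv σ hσ, h11 σ⁻¹ (I.inv_mem hσ), hD τ hτ]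
    ring
  -- (3) the lower-left entry vanishes on `I`
  have hT : ∀ σ ∈ I, c σ 1 0 = 0 := by
    have hT0 : ∀ σ ∈ I, R σ 0 1 ≠ 0 → c σ 1 0 = 0 := fun σ hσ hne =>
      (mul_eq_zero.mp (hTu σ hσ)).resolve_right hne
    intro σ hσ
    by_cases hne : R σ 0 1 = 0
    · have h1 := hT0 (σ * σ₀) (I.mul_mem hσ hσ₀) (by
        rw [hu_mul σ hσ σ₀ hσ₀, hne, hu0, zero_add]
        exact one_ne_zero)
      have h2 := hT0 σ₀ hσ₀ (by rw [hu0]; exact one_ne_zero)
      rw [e10 σ hσ σ₀ hσ₀, h2, add_zero] at h1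
      exact h1
    · exact hT0 σ hσ hne
  -- (4) proportionality: the diagonal entry
  obtain ⟨x, hx⟩ := hprop (fun C _ => C 0 0) (fun _ M => M 0 1)
    (fun σ hσ τ hτ => by
      show c (σ * τ) 0 0 = c σ 0 0 + c τ 0 0
      rw [e00 σ hσ τ hτ, hT τ hτ, mul_zero, add_zero])
    hu_mul ⟨σ₀, hσ₀, by show R σ₀ 0 1 ≠ 0; rw [hu0]; exact one_ne_zero⟩
  have hx' : ∀ σ ∈ I, c σ 0 0 = x * R σ 0 1 := hx
  -- (5) proportionality: the corrected upper-right entry
  obtain ⟨y, hy⟩ := hprop (fun C M => C 0 1 + x * M 0 1 ^ 2) (fun _ M => M 0 1)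
    (fun σ hσ τ hτ => by
      show c (σ * τ) 0 1 + x * R (σ * τ) 0 1 ^ 2 =
        c σ 0 1 + x * R σ 0 1 ^ 2 + (c τ 0 1 + x * R τ 0 1 ^ 2)
      rw [e01 σ hσ τ hτ, hT τ hτ, hu_mul σ hσ τ hτ, hx' τ hτ]
      ring)
    hu_mul ⟨σ₀, hσ₀, by show R σ₀ 0 1 ≠ 0; rw [hu0]; exact one_ne_zero⟩
  have hy' : ∀ σ ∈ I, c σ 0 1 = y * R σ 0 1 - x * R σ 0 1 ^ 2 := fun σ hσ => by
    have := hy σ hσ
    show c σ 0 1 = _
    linear_combination this
  -- (6) the matrix `X`
  refine ⟨!![-(y / 2), 0; x, y / 2], ?_, fun σ hσ => ?_⟩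
  · rw [Matrix.trace_fin_two_of]
    ring
  · ext i j
    fin_cases i <;> fin_cases j
    · show c σ 0 0 = (R σ * !![-(y / 2), 0; x, y / 2] * R σ⁻¹ - !![-(y / 2), 0; x, y / 2]) 0 0
      simp only [Matrix.mul_apply, Matrix.sub_apply, Fin.sum_univ_two, Matrix.of_apply,
        Matrix.cons_val_zero, Matrix.cons_val_one, Matrix.cons_val', Matrix.cons_val_fin_one]
      rw [hx' σ hσ, h00 σ hσ, h00 σ⁻¹ (I.inv_mem hσ), h10 σ⁻¹ (I.inv_mem hσ)]
      ring
    · show c σ 0 1 = (R σ * !![-(y / 2), 0; x, y / 2] * R σ⁻¹ - !![-(y / 2), 0; x, y / 2]) 0 1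
      simp only [Matrix.mul_apply, Matrix.sub_apply, Fin.sum_univ_two, Matrix.of_apply,
        Matrix.cons_val_zero, Matrix.cons_val_one, Matrix.cons_val', Matrix.cons_val_fin_one]
      rw [hy' σ hσ, h00 σ hσ, hu_inv σ hσ, h11 σ⁻¹ (I.inv_mem hσ)]
      field_simp
      ring
    · show c σ 1 0 = (R σ * !![-(y / 2), 0; x, y / 2] * R σ⁻¹ - !![-(y / 2), 0; x, y / 2]) 1 0
      simp only [Matrix.mul_apply, Matrix.sub_apply, Fin.sum_univ_two, Matrix.of_apply,
        Matrix.cons_val_zero, Matrix.cons_val_one, Matrix.cons_val', Matrix.cons_val_fin_one]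
      rw [hT σ hσ, h10 σ hσ, h11 σ hσ, h00 σ⁻¹ (I.inv_mem hσ), h10 σ⁻¹ (I.inv_mem hσ)]
      ring
    · show c σ 1 1 = (R σ * !![-(y / 2), 0; x, y / 2] * R σ⁻¹ - !![-(y / 2), 0; x, y / 2]) 1 1
      simp only [Matrix.mul_apply, Matrix.sub_apply, Fin.sum_univ_two, Matrix.of_apply,
        Matrix.cons_val_zero, Matrix.cons_val_one, Matrix.cons_val', Matrix.cons_val_fin_one]
      rw [hD σ hσ, hx' σ hσ, h10 σ hσ, h11 σ hσ, hu_inv σ hσ, h11 σ⁻¹ (I.inv_mem hσ)]
      field_simp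
      ring

/-- Conjugation does not change the trace. -/
theorem trace_conj {g g' : Matrix (Fin 2) (Fin 2) k} (hg'g : g' * g = 1)
    (M : Matrix (Fin 2) (Fin 2) k) : (g * M * g').trace = M.trace := by
  rw [mul_assoc, Matrix.trace_mul_comm, mul_assoc, hg'g, mul_one]

/-- Conjugation does not change the determinant. -/
theorem det_conj {g g' : Matrix (Fin 2) (Fin 2) k} (hgg' : g * g' = 1)
    (M : Matrix (Fin 2) (Fin 2) k) : (g * M * g').det = M.det := by
  have h : g.det * g'.det = 1 := by rw [← Matrix.det_mul, hgg', Matrix.det_one]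
  rw [Matrix.det_mul, Matrix.det_mul]
  linear_combination M.det * h

/-- **The unipotent core of TW-C2.**  Let `I` be a subgroup acting through unipotent matrices
(`tr = 2`, `det = 1`), non-trivially.  A cocycle `c` on `I` (for the adjoint action) with
`tr (c σ) = 0` and `tr (c σ * R σ) = 0` is the coboundary of a trace-zero matrix, provided any
two additive functions on `I` of the form `σ ↦ φ (c σ) (R σ)` are proportional. -/
theorem exists_cob_of_unipotent (h2 : (2 : k) ≠ 0) (I : Subgroup G)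
    (R : G →* Matrix (Fin 2) (Fin 2) k) (c : G → Matrix (Fin 2) (Fin 2) k)
    (hR : ∀ σ ∈ I, (R σ).trace = 2 ∧ (R σ).det = 1)
    (hc0 : ∀ σ ∈ I, (c σ).trace = 0)
    (hc1 : ∀ σ ∈ I, (c σ * R σ).trace = 0)
    (hcoc : ∀ σ ∈ I, ∀ τ ∈ I, c (σ * τ) = c σ + R σ * c τ * R σ⁻¹)
    (hne : ∃ σ ∈ I, R σ ≠ 1)
    (hprop : ∀ φ ψ : Matrix (Fin 2) (Fin 2) k → Matrix (Fin 2) (Fin 2) k → k,
      (∀ σ ∈ I, ∀ τ ∈ I, φ (c (σ * τ)) (R (σ * τ)) = φ (c σ) (R σ) + φ (c τ) (R τ)) →
      (∀ σ ∈ I, ∀ τ ∈ I, ψ (c (σ * τ)) (R (σ * τ)) = ψ (c σ) (R σ) + ψ (c τ) (R τ)) →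
      (∃ σ ∈ I, ψ (c σ) (R σ) ≠ 0) → ∃ x : k, ∀ σ ∈ I, φ (c σ) (R σ) = x * ψ (c σ) (R σ)) :
    ∃ X : Matrix (Fin 2) (Fin 2) k, X.trace = 0 ∧ ∀ σ ∈ I, c σ = R σ * X * R σ⁻¹ - X := by
  obtain ⟨σ₀, hσ₀, hne⟩ := hne
  obtain ⟨g, g', hgg', hg'g, hconj⟩ :=
    exists_conj_unitri (R σ₀) (hR σ₀ hσ₀).1 (hR σ₀ hσ₀).2 hne
  have hins : ∀ A B : Matrix (Fin 2) (Fin 2) k, g * (A * B) * g' = g * A * g' * (g * B * g') := by
    intro A B
    calc g * (A * B) * g' = g * A * (g' * g) * B * g' := by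
          rw [hg'g, mul_one]
          simp only [mul_assoc]
      _ = g * A * g' * (g * B * g') := by simp only [mul_assoc]
  let R' : G →* Matrix (Fin 2) (Fin 2) k :=
    { toFun := fun σ => g * R σ * g'
      map_one' := by rw [map_one, mul_one, hgg']
      map_mul' := fun σ τ => by rw [map_mul, hins] }
  have hR' : ∀ σ, R' σ = g * R σ * g' := fun σ => rfl
  obtain ⟨X', hX', hX'c⟩ := exists_cob_of_unitri h2 I R' (fun σ => g * c σ * g')
    (fun σ hσ => by
      rw [hR', trace_conj hg'g, det_conj hgg']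
      exact hR σ hσ)
    (fun σ hσ => by
      show (g * c σ * g').trace = 0
      rw [trace_conj hg'g]
      exact hc0 σ hσ)
    (fun σ hσ => by
      show (g * c σ * g' * R' σ).trace = 0
      rw [hR', ← hins, trace_conj hg'g]
      exact hc1 σ hσ)
    (fun σ hσ τ hτ => by
      show g * c (σ * τ) * g' = g * c σ * g' + R' σ * (g * c τ * g') * R' σ⁻¹
      rw [hR', hR', ← hins, ← hins, hcoc σ hσ τ hτ, mul_add, add_mul])
    σ₀ hσ₀ (by rw [hR', hconj])
    (fun φ ψ hφ hψ hne' => by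
      exact hprop (fun C M => φ (g * C * g') (g * M * g')) (fun C M => ψ (g * C * g') (g * M * g'))
        hφ hψ hne')
  refine ⟨g' * X' * g, ?_, fun σ hσ => ?_⟩
  · rw [trace_conj hgg']
    exact hX'
  · have h : g * c σ * g' = R' σ * X' * R' σ⁻¹ - X' := hX'c σ hσ
    rw [hR', hR'] at h
    have h3 : g' * (g * c σ * g') * g = c σ := by
      calc g' * (g * c σ * g') * g = (g' * g) * c σ * (g' * g) := by simp only [mul_assoc]
        _ = c σ := by rw [hg'g, one_mul, mul_one]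
    rw [← h3, h, mul_sub, sub_mul]
    congr 1
    calc g' * (g * R σ * g' * X' * (g * R σ⁻¹ * g')) * g
        = (g' * g) * R σ * (g' * X' * g) * R σ⁻¹ * (g' * g) := by simp only [mul_assoc]
      _ = R σ * (g' * X' * g) * R σ⁻¹ := by rw [hg'g, one_mul, mul_one]

end Fermat.Agent.TW.Contain
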